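import Fermat.Agent.S20_helper1.Infty

/-!
# Matrices with entries in the valuation ring at infinity

* `vI_det_le_one`            : an `O_∞`-integral matrix has `O_∞`-integral determinant.
* `isIntegralMat_inv`        : if moreover `v (det B) = 1`, the inverse is `O_∞`-integral.
* `exists_const_dependence`  : if `v (det B) < 1`, some nonzero *constant* combination of the rows
  of `B` has all entries of valuation `< 1`.
-/

namespace Fermat.Agent.S20_helper1

open WithZero Matrix

noncomputable section

variable {k : Type*} [Field k] {ι : Type*} [Fintype ι] [DecidableEq ι]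

/-- the valuation ring at infinity -/
abbrev OI (k : Type*) [Field k] : ValuationSubring (RatFunc k) := (vI k).valuationSubring

/-- all entries are integral at infinity -/
def IsIntegralMat (B : Matrix ι ι (RatFunc k)) : Prop := ∀ i j, vI k (B i j) ≤ 1

/-- lift an integral matrix to the valuation ring -/
def liftMat (B : Matrix ι ι (RatFunc k)) (hB : IsIntegralMat B) : Matrix ι ι (OI k) :=
  fun i j => ⟨B i j, (Valuation.mem_valuationSubring_iff _ _).mpr (hB i j)⟩

lemma mapMatrix_liftMat (B : Matrix ι ι (RatFunc k)) (hB : IsIntegralMat B) :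
    (OI k).subtype.mapMatrix (liftMat B hB) = B := by
  ext i j
  rfl

lemma coe_det_liftMat (B : Matrix ι ι (RatFunc k)) (hB : IsIntegralMat B) :
    (((liftMat B hB).det : OI k) : RatFunc k) = B.det := by
  have h := RingHom.map_det (OI k).subtype (liftMat B hB)
  rw [mapMatrix_liftMat] at h
  exact h

lemma vI_det_le_one {B : Matrix ι ι (RatFunc k)} (hB : IsIntegralMat B) : vI k B.det ≤ 1 := by
  rw [← coe_det_liftMat B hB]
  exact (Valuation.mem_valuationSubring_iff _ _).mp (liftMat B hB).det.2

lemma isIntegralMat_adjugate {B : Matrix ι ι (RatFunc k)} (hB : IsIntegralMat B) :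
    IsIntegralMat B.adjugate := by
  intro i j
  have h := RingHom.map_adjugate (OI k).subtype (liftMat B hB)
  rw [mapMatrix_liftMat] at h
  rw [← h]
  exact (Valuation.mem_valuationSubring_iff _ _).mp ((liftMat B hB).adjugate i j).2

lemma isIntegralMat_one : IsIntegralMat (1 : Matrix ι ι (RatFunc k)) := by
  intro i j
  rw [Matrix.one_apply]
  split_ifs <;> simp

omit [DecidableEq ι] in
lemma IsIntegralMat.mul {B C : Matrix ι ι (RatFunc k)} (hB : IsIntegralMat B)
    (hC : IsIntegralMat C) : IsIntegralMat (B * C) := by
  intro i j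
  rw [Matrix.mul_apply]
  refine Valuation.map_sum_le _ fun l _ => ?_
  rw [map_mul]
  exact mul_le_one' (hB i l) (hC l j)

lemma isIntegralMat_inv {B : Matrix ι ι (RatFunc k)} (hB : IsIntegralMat B)
    (hdet : vI k B.det = 1) : IsIntegralMat B⁻¹ := by
  have hne : B.det ≠ 0 := by
    intro h
    rw [h, map_zero] at hdet
    exact zero_ne_one hdet
  intro i j
  rw [Matrix.inv_def, Ring.inverse_eq_inv', Matrix.smul_apply, smul_eq_mul, map_mul, map_inv₀,
    hdet, inv_one, one_mul]
  exact isIntegralMat_adjugate hB i j

omit [DecidableEq ι] in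
/-- vectors integral at infinity are preserved by integral matrices -/
lemma vecMul_integral {B : Matrix ι ι (RatFunc k)} (hB : IsIntegralMat B) {w : ι → RatFunc k}
    (hw : ∀ i, vI k (w i) ≤ 1) (j : ι) : vI k ((w ᵥ* B) j) ≤ 1 := by
  rw [Matrix.vecMul, dotProduct]
  refine Valuation.map_sum_le _ fun l _ => ?_
  rw [map_mul]
  exact mul_le_one' (hw l) (hB l j)

/-- if the determinant of an integral matrix is not a unit at infinity, some nonzero
constant combination of its rows lies in the maximal ideal -/
theorem exists_const_dependence {B : Matrix ι ι (RatFunc k)} (hB : IsIntegralMat B)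
    (hdet : vI k B.det < 1) :
    ∃ c : ι → k, c ≠ 0 ∧ ∀ j, vI k (∑ i, RatFunc.C (c i) * B i j) < 1 := by
  classical
  set B' := liftMat B hB with hB'
  set res := IsLocalRing.residue (OI k) with hres
  -- the residue matrix is singular
  have hdet' : (B'.map res).det = 0 := by
    have h1 : (res.mapMatrix B').det = res B'.det := (RingHom.map_det res B').symm
    have h2 : res B'.det = 0 := by
      rw [hres, IsLocalRing.residue_eq_zero_iff, Valuation.mem_maximalIdeal_iff,
        coe_det_liftMat B hB]
      exact hdet
    rw [← h2, ← h1]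
    rfl
  obtain ⟨cbar, hcbar0, hcbar⟩ := Matrix.exists_vecMul_eq_zero_iff.mpr hdet'
  -- lift the coefficients to constants
  have hlift : ∀ i, ∃ c : k, ∃ hc : vI k (RatFunc.C c) ≤ 1,
      res ⟨RatFunc.C c, (Valuation.mem_valuationSubring_iff _ _).mpr hc⟩ = cbar i := by
    intro i
    obtain ⟨u, hu⟩ := IsLocalRing.residue_surjective (R := OI k) (cbar i)
    obtain ⟨c, hc⟩ := exists_const_sub_lt ((Valuation.mem_valuationSubring_iff _ _).mp u.2)
    refine ⟨c, vI_C_le_one c, ?_⟩
    rw [← hu, hres, ← sub_eq_zero, ← map_sub, IsLocalRing.residue_eq_zero_iff,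
      Valuation.mem_maximalIdeal_iff]
    have : ((⟨RatFunc.C c, (Valuation.mem_valuationSubring_iff _ _).mpr (vI_C_le_one c)⟩ - u :
        OI k) : RatFunc k) = -((u : RatFunc k) - RatFunc.C c) := by
      simp
    rw [this, Valuation.map_neg]
    exact hc
  choose c hc1 hc2 using hlift
  refine ⟨c, ?_, ?_⟩
  · intro h0
    apply hcbar0
    funext i
    rw [← hc2 i]
    have hci : c i = 0 := congrFun h0 i
    have hz : (⟨RatFunc.C (c i), (Valuation.mem_valuationSubring_iff _ _).mpr (hc1 i)⟩ : OI k)
        = 0 := Subtype.ext (by simp [hci])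
    rw [hz, map_zero]
    rfl
  · intro j
    have hmem : (∑ i, (⟨RatFunc.C (c i), (Valuation.mem_valuationSubring_iff _ _).mpr (hc1 i)⟩ :
        OI k) * B' i j) ∈ IsLocalRing.maximalIdeal (OI k) := by
      rw [← IsLocalRing.residue_eq_zero_iff, map_sum]
      have := congrFun hcbar j
      simp only [Matrix.vecMul, dotProduct, Matrix.map_apply, Pi.zero_apply] at this
      rw [← this]
      refine Finset.sum_congr rfl fun i _ => ?_
      rw [map_mul, ← hres, hc2 i]
    rw [Valuation.mem_maximalIdeal_iff] at hmem
    have hcoe : ((∑ i, (⟨RatFunc.C (c i),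
        (Valuation.mem_valuationSubring_iff _ _).mpr (hc1 i)⟩ : OI k) * B' i j : OI k) : RatFunc k)
        = ∑ i, RatFunc.C (c i) * B i j := by
      rw [← ValuationSubring.subtype_apply, map_sum]
      rfl
    rw [hcoe] at hmem
    exact hmem

end

end Fermat.Agent.S20_helper1
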