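import Fermat.Agent.S20_helper1.Residue

/-!
# Dedekind–Weber / Birkhoff–Grothendieck factorisation over `k[X]` and `O_∞`

For `P ∈ GL_ι(k(X))` there are `W ∈ GL_ι(k[X])`, integers `d i` and `U ∈ GL_ι(O_∞)` with
`W * P⁻¹ = diag(X ^ d i) * U`.
-/

namespace Fermat.Agent.S20_helper1

open WithZero Matrix Polynomial

noncomputable section

variable {k : Type*} [Field k] {ι : Type*} [Fintype ι] [DecidableEq ι]

/-- base change of a polynomial matrix to `k(X)` -/
def toK (W : Matrix ι ι k[X]) : Matrix ι ι (RatFunc k) :=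
  (algebraMap k[X] (RatFunc k)).mapMatrix W

lemma toK_apply (W : Matrix ι ι k[X]) (i j : ι) :
    toK W i j = algebraMap k[X] (RatFunc k) (W i j) := rfl

lemma det_toK (W : Matrix ι ι k[X]) : (toK W).det = algebraMap k[X] (RatFunc k) W.det :=
  (RingHom.map_det _ _).symm

lemma toK_mul (W W' : Matrix ι ι k[X]) : toK (W * W') = toK W * toK W' :=
  map_mul _ _ _

lemma toK_one : toK (1 : Matrix ι ι k[X]) = 1 := map_one _

lemma vI_det_toK_of_isUnit {W : Matrix ι ι k[X]} (hW : IsUnit W.det) :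
    vI k (toK W).det = 1 := by
  obtain ⟨c, hc, hcW⟩ := Polynomial.isUnit_iff.mp hW
  rw [det_toK, ← hcW, RatFunc.algebraMap_C, vI_C hc.ne_zero]

lemma det_toK_ne_zero {W : Matrix ι ι k[X]} (hW : IsUnit W.det) : (toK W).det ≠ 0 := by
  intro h
  have := vI_det_toK_of_isUnit hW
  rw [h, map_zero] at this
  exact zero_ne_one this

/-- the row-scaled matrix `diag(X^{-d}) * (W P⁻¹)` -/
def scaled (P : Matrix ι ι (RatFunc k)) (W : Matrix ι ι k[X]) (d : ι → ℤ) :
    Matrix ι ι (RatFunc k) :=
  Matrix.diagonal (fun i => (RatFunc.X : RatFunc k) ^ (-(d i))) * (toK W * P⁻¹)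

lemma scaled_apply (P : Matrix ι ι (RatFunc k)) (W : Matrix ι ι k[X]) (d : ι → ℤ) (i j : ι) :
    scaled P W d i j = (RatFunc.X : RatFunc k) ^ (-(d i)) * (toK W * P⁻¹) i j := by
  rw [scaled, Matrix.diagonal_mul]

lemma isIntegralMat_scaled {P : Matrix ι ι (RatFunc k)} {W : Matrix ι ι k[X]} {d : ι → ℤ}
    (hbound : ∀ i j, vI k ((toK W * P⁻¹) i j) ≤ exp (d i)) : IsIntegralMat (scaled P W d) := by
  intro i j
  rw [scaled_apply, map_mul, vI_X_zpow, WithZero.exp_neg]
  calc (exp (d i))⁻¹ * vI k ((toK W * P⁻¹) i j) ≤ (exp (d i))⁻¹ * exp (d i) :=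
        mul_le_mul' le_rfl (hbound i j)
    _ = 1 := inv_mul_cancel₀ exp_ne_zero

lemma vI_det_scaled {P : Matrix ι ι (RatFunc k)} (hP : P.det ≠ 0) {W : Matrix ι ι k[X]}
    (hW : IsUnit W.det) (d : ι → ℤ) :
    vI k (scaled P W d).det = exp (-(∑ i, d i) - P.det.intDegree) := by
  rw [scaled, Matrix.det_mul, Matrix.det_mul, Matrix.det_diagonal, Matrix.det_nonsing_inv,
    Ring.inverse_eq_inv', map_mul, map_mul, vI_det_toK_of_isUnit hW, one_mul, map_inv₀,
    vI_of_ne_zero hP, map_prod]
  simp only [vI_X_zpow]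
  rw [← exp_sum, ← WithZero.exp_neg, ← exp_add, Finset.sum_neg_distrib]
  rfl

/-- one descent step -/
lemma descent_step (P : Matrix ι ι (RatFunc k)) (W : Matrix ι ι k[X]) (d : ι → ℤ)
    (hW : IsUnit W.det) (hbound : ∀ i j, vI k ((toK W * P⁻¹) i j) ≤ exp (d i))
    (c : ι → k) (hc : c ≠ 0)
    (hdep : ∀ j, vI k (∑ i, RatFunc.C (c i) * scaled P W d i j) < 1) :
    ∃ (W' : Matrix ι ι k[X]) (d' : ι → ℤ), IsUnit W'.det ∧
      (∀ i j, vI k ((toK W' * P⁻¹) i j) ≤ exp (d' i)) ∧ ∑ i, d' i = ∑ i, d i - 1 := by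
  classical
  -- choose `i₀` with `c i₀ ≠ 0` and `d i₀` maximal
  have hne : (Finset.univ.filter fun i => c i ≠ 0).Nonempty := by
    by_contra h
    rw [Finset.not_nonempty_iff_eq_empty, Finset.filter_eq_empty_iff] at h
    apply hc
    funext i
    simpa using h (Finset.mem_univ i)
  obtain ⟨i₀, hi₀, hmax⟩ := Finset.exists_max_image _ d hne
  rw [Finset.mem_filter] at hi₀
  have hci₀ : c i₀ ≠ 0 := hi₀.2
  have hmax' : ∀ l, c l ≠ 0 → d l ≤ d i₀ := fun l hl =>
    hmax l (Finset.mem_filter.mpr ⟨Finset.mem_univ l, hl⟩)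
  set e : ι → k[X] := fun l => Polynomial.C (c l) * Polynomial.X ^ (d i₀ - d l).toNat with he
  set W' : Matrix ι ι k[X] := W.updateRow i₀ (∑ l, e l • W l) with hW'
  refine ⟨W', Function.update d i₀ (d i₀ - 1), ?_, ?_, ?_⟩
  · -- determinant
    rw [hW', Matrix.det_updateRow_sum, smul_eq_mul]
    refine IsUnit.mul ?_ hW
    simp only [he, sub_self, Int.toNat_zero, pow_zero, mul_one]
    exact Polynomial.isUnit_C.mpr (isUnit_iff_ne_zero.mpr hci₀)
  · intro i j
    by_cases hi : i = i₀
    · subst hi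
      rw [Function.update_self]
      -- row `i₀` of `W' P⁻¹`
      have hrow : (toK W' * P⁻¹) i j
          = RatFunc.X ^ (d i) * ∑ l, RatFunc.C (c l) * scaled P W d l j := by
        rw [Matrix.mul_apply, Finset.mul_sum]
        have h1 : ∀ m, toK W' i m = ∑ l, algebraMap k[X] (RatFunc k) (e l) * toK W l m := by
          intro m
          rw [toK_apply, hW', Matrix.updateRow_self, Finset.sum_apply, map_sum]
          refine Finset.sum_congr rfl fun l _ => ?_
          rw [Pi.smul_apply, smul_eq_mul, map_mul, toK_apply]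
        simp_rw [h1, Finset.sum_mul]
        rw [Finset.sum_comm]
        refine Finset.sum_congr rfl fun l _ => ?_
        rw [scaled_apply, Matrix.mul_apply, Finset.mul_sum, Finset.mul_sum, Finset.mul_sum]
        refine Finset.sum_congr rfl fun m _ => ?_
        by_cases hl : c l = 0
        · simp [he, hl]
        · have hdl : ((d i - d l).toNat : ℤ) = d i - d l := by
            have := hmax' l hl
            omega
          have hX : (RatFunc.X : RatFunc k) ≠ 0 := RatFunc.X_ne_zero
          have : algebraMap k[X] (RatFunc k) (e l)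
              = RatFunc.X ^ (d i) * (RatFunc.C (c l) * RatFunc.X ^ (-(d l))) := by
            simp only [he]
            rw [map_mul, map_pow, RatFunc.algebraMap_C, RatFunc.algebraMap_X, ← zpow_natCast, hdl,
              sub_eq_add_neg, zpow_add₀ hX]
            ring
          rw [this]
          ring
      rw [hrow, map_mul, vI_X_zpow, ← lt_exp_iff_le_exp_pred]
      calc exp (d i) * vI k (∑ l, RatFunc.C (c l) * scaled P W d l j) < exp (d i) * 1 :=
            mul_lt_mul_of_pos_left (hdep j) exp_pos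
        _ = exp (d i) := mul_one _
    · rw [Function.update_of_ne hi]
      have : (toK W' * P⁻¹) i j = (toK W * P⁻¹) i j := by
        rw [Matrix.mul_apply, Matrix.mul_apply]
        refine Finset.sum_congr rfl fun m _ => ?_
        rw [toK_apply, toK_apply, hW', Matrix.updateRow_ne hi]
      rw [this]
      exact hbound i j
  · rw [Finset.sum_update_of_mem (Finset.mem_univ i₀)]
    have := Finset.add_sum_erase Finset.univ d (Finset.mem_univ i₀)
    have h2 : (Finset.univ \ {i₀} : Finset ι) = Finset.univ.erase i₀ := by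
      ext; simp
    rw [h2]
    omega

lemma diagonal_mul_scaled (P : Matrix ι ι (RatFunc k)) (W : Matrix ι ι k[X]) (d : ι → ℤ) :
    Matrix.diagonal (fun i => (RatFunc.X : RatFunc k) ^ d i) * scaled P W d = toK W * P⁻¹ := by
  have hX : (RatFunc.X : RatFunc k) ≠ 0 := RatFunc.X_ne_zero
  rw [scaled, ← Matrix.mul_assoc, Matrix.diagonal_mul_diagonal]
  have : (fun i => (RatFunc.X : RatFunc k) ^ d i * RatFunc.X ^ (-(d i))) = fun _ => 1 := by
    funext i
    rw [← zpow_add₀ hX, add_neg_cancel, zpow_zero]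
  rw [this, Matrix.diagonal_one, Matrix.one_mul]

theorem birkhoff_aux {P : Matrix ι ι (RatFunc k)} (hP : P.det ≠ 0) (n : ℕ) :
    ∀ (W : Matrix ι ι k[X]) (d : ι → ℤ), IsUnit W.det →
      (∀ i j, vI k ((toK W * P⁻¹) i j) ≤ exp (d i)) →
      ∑ i, d i + P.det.intDegree ≤ n →
      ∃ (W' : Matrix ι ι k[X]) (d' : ι → ℤ) (U : Matrix ι ι (RatFunc k)),
        IsUnit W'.det ∧ IsIntegralMat U ∧ vI k U.det = 1 ∧
        toK W' * P⁻¹ = Matrix.diagonal (fun i => (RatFunc.X : RatFunc k) ^ d' i) * U := by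
  induction n with
  | zero =>
    intro W d hW hbound hn
    have hint := isIntegralMat_scaled hbound
    have hdet := vI_det_scaled hP hW d
    have hle := vI_det_le_one hint
    rw [hdet, ← exp_zero, exp_le_exp] at hle
    have h0 : -(∑ i, d i) - P.det.intDegree = 0 := by
      simp only [CharP.cast_eq_zero] at hn
      omega
    refine ⟨W, d, scaled P W d, hW, hint, ?_, (diagonal_mul_scaled P W d).symm⟩
    rw [hdet, h0, exp_zero]
  | succ n ih =>
    intro W d hW hbound hn
    have hint := isIntegralMat_scaled hbound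
    have hdet := vI_det_scaled hP hW d
    have hle := vI_det_le_one hint
    by_cases h1 : vI k (scaled P W d).det = 1
    · exact ⟨W, d, scaled P W d, hW, hint, h1, (diagonal_mul_scaled P W d).symm⟩
    · have hlt : vI k (scaled P W d).det < 1 := lt_of_le_of_ne hle h1
      obtain ⟨c, hc, hdep⟩ := exists_const_dependence hint hlt
      obtain ⟨W', d', hW', hb', hsum⟩ := descent_step P W d hW hbound c hc hdep
      refine ih W' d' hW' hb' ?_
      rw [hsum]
      push_cast at hn
      omega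

/-- **Dedekind–Weber / Birkhoff–Grothendieck.** -/
theorem birkhoff {P : Matrix ι ι (RatFunc k)} (hP : P.det ≠ 0) :
    ∃ (W : Matrix ι ι k[X]) (d : ι → ℤ) (U : Matrix ι ι (RatFunc k)),
      IsUnit W.det ∧ IsIntegralMat U ∧ vI k U.det = 1 ∧
      toK W * P⁻¹ = Matrix.diagonal (fun i => (RatFunc.X : RatFunc k) ^ d i) * U := by
  classical
  -- a uniform bound for the entries of `P⁻¹`
  have hex : ∀ p : ι × ι, ∃ n : ℕ, vI k (P⁻¹ p.1 p.2) ≤ exp ((n : ℤ) - 1) :=
    fun p => exists_nat_vI_le _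
  choose N hN using hex
  set d₀ : ℤ := ((∑ p, N p : ℕ) : ℤ) with hd₀
  have hbound : ∀ i j, vI k ((toK (1 : Matrix ι ι k[X]) * P⁻¹) i j) ≤ exp d₀ := by
    intro i j
    rw [toK_one, Matrix.one_mul]
    refine (hN (i, j)).trans ?_
    rw [exp_le_exp]
    have : N (i, j) ≤ ∑ p, N p := Finset.single_le_sum (fun _ _ => Nat.zero_le _) (Finset.mem_univ _)
    omega
  have hW1 : IsUnit (1 : Matrix ι ι k[X]).det := by simp
  -- the defect is a natural number
  have hint := isIntegralMat_scaled (d := fun _ => d₀) hbound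
  have hdet := vI_det_scaled hP hW1 (fun _ => d₀)
  have hle := vI_det_le_one hint
  rw [hdet, ← exp_zero, exp_le_exp] at hle
  exact birkhoff_aux hP (∑ _i : ι, d₀ + P.det.intDegree).toNat 1 (fun _ => d₀) hW1 hbound
    (by omega)

end

end Fermat.Agent.S20_helper1
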