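import Fermat.Agent.S20_helper1.RankOne
import Fermat.Agent.S20_helper1.Birkhoff

/-!
# Riemann–Roch for lattice pairs on the projective line

`K = k(X)`, `V = ι → K`, `Llat = k[X]^ι`, `Mlat P = {v | v ᵥ* P⁻¹ ∈ O_∞^ι} = O_∞^ι ᵥ* P`.
Main result `lattice_index`:
`finrank k (Llat ⊓ Mlat P) - finrank k (V ⧸ (Llat ⊔ Mlat P)) = card ι + intDegree (det P)`.
-/

namespace Fermat.Agent.S20_helper1

open WithZero Matrix Polynomial Module

noncomputable section

variable {k : Type*} [Field k] {ι : Type*} [Fintype ι] [DecidableEq ι]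

/-! ### products of subspaces -/

section Pi

variable (S S' : ι → Submodule k (RatFunc k))

omit [Fintype ι] [DecidableEq ι] in
lemma pi_inf_pi : Submodule.pi Set.univ S ⊓ Submodule.pi Set.univ S'
    = Submodule.pi Set.univ (fun i => S i ⊓ S' i) := by
  ext v
  simp only [Submodule.mem_inf, Submodule.mem_pi, Set.mem_univ, forall_true_left]
  exact ⟨fun h i => ⟨h.1 i, h.2 i⟩, fun h => ⟨fun i => (h i).1, fun i => (h i).2⟩⟩

omit [Fintype ι] [DecidableEq ι] in
lemma pi_sup_pi : Submodule.pi Set.univ S ⊔ Submodule.pi Set.univ S'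
    = Submodule.pi Set.univ (fun i => S i ⊔ S' i) := by
  apply le_antisymm
  · refine sup_le ?_ ?_
    · exact Submodule.pi_mono fun i _ => le_sup_left
    · exact Submodule.pi_mono fun i _ => le_sup_right
  · intro v hv
    simp only [Submodule.mem_pi, Set.mem_univ, forall_true_left, Submodule.mem_sup] at hv
    choose a ha b hb hab using hv
    rw [Submodule.mem_sup]
    refine ⟨a, ?_, b, ?_, ?_⟩
    · simpa [Submodule.mem_pi] using ha
    · simpa [Submodule.mem_pi] using hb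
    · funext i
      exact hab i

omit [Fintype ι] [DecidableEq ι] in
/-- a product of subspaces as a product of types -/
def piSubEquiv : ↥(Submodule.pi Set.univ S) ≃ₗ[k] (∀ i, ↥(S i)) where
  toFun v i := ⟨v.1 i, v.2 i (Set.mem_univ i)⟩
  invFun w := ⟨fun i => (w i).1, fun i _ => (w i).2⟩
  map_add' _ _ := rfl
  map_smul' _ _ := rfl
  left_inv _ := rfl
  right_inv _ := rfl

end Pi

/-! ### the lattices -/

/-- the polynomial lattice `k[X]^ι` -/
def Llat (k : Type*) [Field k] (ι : Type*) : Submodule k (ι → RatFunc k) :=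
  Submodule.pi Set.univ (fun _ => Apoly k)

/-- the diagonal lattice `∏ X^{d i} O_∞` -/
def Dlat (d : ι → ℤ) : Submodule k (ι → RatFunc k) :=
  Submodule.pi Set.univ (fun i => Kle k (d i))

/-- right multiplication by a matrix, as a `k`-linear map -/
def vm (Q : Matrix ι ι (RatFunc k)) : (ι → RatFunc k) →ₗ[k] (ι → RatFunc k) :=
  (Matrix.vecMulLinear Q).restrictScalars k

@[simp] lemma vm_apply (Q : Matrix ι ι (RatFunc k)) (v : ι → RatFunc k) : vm Q v = v ᵥ* Q := rfl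

/-- the lattice `O_∞^ι ᵥ* P`, i.e. `{v | v ᵥ* P⁻¹ is integral at infinity}` -/
def Mlat (P : Matrix ι ι (RatFunc k)) : Submodule k (ι → RatFunc k) :=
  (Dlat (fun _ => (0 : ℤ))).comap (vm P⁻¹)

omit [Fintype ι] [DecidableEq ι] in
lemma mem_Llat {v : ι → RatFunc k} :
    v ∈ Llat k ι ↔ ∀ i, ∃ a : k[X], algebraMap k[X] (RatFunc k) a = v i := by
  simp [Llat, Submodule.mem_pi, mem_Apoly]

omit [Fintype ι] [DecidableEq ι] in
lemma mem_Dlat {d : ι → ℤ} {v : ι → RatFunc k} : v ∈ Dlat d ↔ ∀ i, vI k (v i) ≤ exp (d i) := by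
  simp [Dlat, Submodule.mem_pi, mem_Kle]

lemma mem_Mlat {P : Matrix ι ι (RatFunc k)} {v : ι → RatFunc k} :
    v ∈ Mlat P ↔ ∀ i, vI k ((v ᵥ* P⁻¹) i) ≤ 1 := by
  rw [Mlat, Submodule.mem_comap, mem_Dlat]
  simp

lemma mem_Mlat_iff_intDegree {P : Matrix ι ι (RatFunc k)} {v : ι → RatFunc k} :
    v ∈ Mlat P ↔ ∀ i, ((v ᵥ* P⁻¹) i).intDegree ≤ 0 := by
  rw [mem_Mlat]
  simp only [vI_le_one_iff]

/-- `Mlat P` is the image of the integral vectors under `· ᵥ* P` -/
lemma mem_Mlat_iff_exists {P : Matrix ι ι (RatFunc k)} (hP : P.det ≠ 0) {v : ι → RatFunc k} :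
    v ∈ Mlat P ↔ ∃ w : ι → RatFunc k, (∀ i, vI k (w i) ≤ 1) ∧ w ᵥ* P = v := by
  have hu : IsUnit P.det := isUnit_iff_ne_zero.mpr hP
  rw [mem_Mlat]
  constructor
  · intro h
    refine ⟨v ᵥ* P⁻¹, h, ?_⟩
    rw [Matrix.vecMul_vecMul, Matrix.nonsing_inv_mul P hu, Matrix.vecMul_one]
  · rintro ⟨w, hw, rfl⟩
    rw [Matrix.vecMul_vecMul, Matrix.mul_nonsing_inv P hu, Matrix.vecMul_one]
    exact hw

/-! ### the diagonal case -/

lemma Llat_inf_Dlat (d : ι → ℤ) :
    Llat k ι ⊓ Dlat d = Submodule.pi Set.univ (fun i => Apoly k ⊓ Kle k (d i)) :=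
  pi_inf_pi _ _

lemma Llat_sup_Dlat (d : ι → ℤ) :
    Llat k ι ⊔ Dlat d = Submodule.pi Set.univ (fun i => Apoly k ⊔ Kle k (d i)) :=
  pi_sup_pi _ _

instance finiteDimensional_Llat_inf_Dlat (d : ι → ℤ) :
    FiniteDimensional k ↥(Llat k ι ⊓ Dlat d) := by
  rw [Llat_inf_Dlat]
  exact LinearEquiv.finiteDimensional (piSubEquiv fun i => Apoly k ⊓ Kle k (d i)).symm

theorem finrank_Llat_inf_Dlat (d : ι → ℤ) :
    finrank k ↥(Llat k ι ⊓ Dlat d) = ∑ i, (d i + 1).toNat := by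
  rw [Llat_inf_Dlat, LinearEquiv.finrank_eq (piSubEquiv fun i => Apoly k ⊓ Kle k (d i)),
    Module.finrank_pi_fintype]
  exact Finset.sum_congr rfl fun i _ => finrank_Apoly_inf_Kle (d i)

instance finiteDimensional_quot_Llat_sup_Dlat (d : ι → ℤ) :
    FiniteDimensional k ((ι → RatFunc k) ⧸ (Llat k ι ⊔ Dlat d)) := by
  rw [Llat_sup_Dlat]
  exact LinearEquiv.finiteDimensional
    (Submodule.quotientPi fun i => Apoly k ⊔ Kle k (d i)).symm

theorem finrank_quot_Llat_sup_Dlat (d : ι → ℤ) :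
    finrank k ((ι → RatFunc k) ⧸ (Llat k ι ⊔ Dlat d)) = ∑ i, (-(d i) - 1).toNat := by
  rw [Llat_sup_Dlat, LinearEquiv.finrank_eq
    (Submodule.quotientPi fun i => Apoly k ⊔ Kle k (d i)), Module.finrank_pi_fintype]
  exact Finset.sum_congr rfl fun i _ => finrank_quot_Apoly_sup_Kle (d i)

/-! ### transport along `k[X]`-unimodular matrices -/

/-- right multiplication by an invertible matrix as a `k`-linear equivalence -/
def vmEquiv (Q Q' : Matrix ι ι (RatFunc k)) (h1 : Q * Q' = 1) (h2 : Q' * Q = 1) :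
    (ι → RatFunc k) ≃ₗ[k] (ι → RatFunc k) :=
  LinearEquiv.ofLinearMap (vm Q) (vm Q')
    (LinearMap.ext fun v => by
      change (v ᵥ* Q') ᵥ* Q = v
      rw [Matrix.vecMul_vecMul, h2, Matrix.vecMul_one])
    (LinearMap.ext fun v => by
      change (v ᵥ* Q) ᵥ* Q' = v
      rw [Matrix.vecMul_vecMul, h1, Matrix.vecMul_one])

@[simp] lemma vmEquiv_apply (Q Q' : Matrix ι ι (RatFunc k)) (h1 : Q * Q' = 1) (h2 : Q' * Q = 1)
    (v : ι → RatFunc k) : vmEquiv Q Q' h1 h2 v = v ᵥ* Q := rfl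

lemma vecMul_toK_mem_Llat (W' : Matrix ι ι k[X]) {v : ι → RatFunc k} (hv : v ∈ Llat k ι) :
    v ᵥ* toK W' ∈ Llat k ι := by
  rw [mem_Llat] at hv ⊢
  choose a ha using hv
  intro j
  refine ⟨∑ i, a i * W' i j, ?_⟩
  rw [map_sum, Matrix.vecMul, dotProduct]
  refine Finset.sum_congr rfl fun i _ => ?_
  rw [map_mul, ha i, toK_apply]

lemma vI_mul_X_zpow_le_one_iff {u : RatFunc k} {d : ℤ} :
    vI k (u * RatFunc.X ^ d) ≤ 1 ↔ vI k u ≤ exp (-d) := by
  rw [map_mul, vI_X_zpow, WithZero.exp_neg, ← one_mul (exp d)⁻¹, le_mul_inv_iff₀ exp_pos]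

/-- the key transport statement -/
theorem lattice_index_aux {P : Matrix ι ι (RatFunc k)} (hP : P.det ≠ 0)
    {W : Matrix ι ι k[X]} {d : ι → ℤ} {U : Matrix ι ι (RatFunc k)}
    (hW : IsUnit W.det) (hU : IsIntegralMat U) (hdetU : vI k U.det = 1)
    (hB : toK W * P⁻¹ = Matrix.diagonal (fun i => (RatFunc.X : RatFunc k) ^ d i) * U) :
    FiniteDimensional k ↥(Llat k ι ⊓ Mlat P) ∧
    FiniteDimensional k ((ι → RatFunc k) ⧸ (Llat k ι ⊔ Mlat P)) ∧
    finrank k ↥(Llat k ι ⊓ Mlat P) = ∑ i, (-(d i) + 1).toNat ∧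
    finrank k ((ι → RatFunc k) ⧸ (Llat k ι ⊔ Mlat P)) = ∑ i, (d i - 1).toNat ∧
    P.det.intDegree = -∑ i, d i := by
  -- the inverse of `W` over `k[X]`
  have hWW : W * W⁻¹ = 1 := Matrix.mul_nonsing_inv W hW
  have hWW' : W⁻¹ * W = 1 := Matrix.nonsing_inv_mul W hW
  have h1 : toK W⁻¹ * toK W = 1 := by rw [← toK_mul, hWW', toK_one]
  have h2 : toK W * toK W⁻¹ = 1 := by rw [← toK_mul, hWW, toK_one]
  set T := vmEquiv (toK W⁻¹) (toK W) h1 h2 with hT
  -- the inverse of `U`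
  have hUdet : U.det ≠ 0 := by
    intro h
    rw [h, map_zero] at hdetU
    exact zero_ne_one hdetU
  have hUu : IsUnit U.det := isUnit_iff_ne_zero.mpr hUdet
  have hUinv : IsIntegralMat U⁻¹ := isIntegralMat_inv hU hdetU
  -- (T1)
  have hT1 : (Llat k ι).comap T.toLinearMap = Llat k ι := by
    ext v
    rw [Submodule.mem_comap]
    constructor
    · intro h
      have h3 := vecMul_toK_mem_Llat W h
      have h4 : (T.toLinearMap v) ᵥ* toK W = v := by
        change (v ᵥ* toK W⁻¹) ᵥ* toK W = v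
        rw [Matrix.vecMul_vecMul, h1, Matrix.vecMul_one]
      rwa [h4] at h3
    · intro h
      exact vecMul_toK_mem_Llat W⁻¹ h
  -- (T2)
  have hT2 : (Dlat (fun i => -(d i))).comap T.toLinearMap = Mlat P := by
    ext v
    rw [Submodule.mem_comap, mem_Dlat, mem_Mlat]
    set u : ι → RatFunc k := T.toLinearMap v with hu
    have hvP : v ᵥ* P⁻¹ = (u ᵥ* Matrix.diagonal (fun i => (RatFunc.X : RatFunc k) ^ d i)) ᵥ* U := by
      rw [Matrix.vecMul_vecMul, ← hB, ← Matrix.vecMul_vecMul]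
      congr 1
      change v = (v ᵥ* toK W⁻¹) ᵥ* toK W
      rw [Matrix.vecMul_vecMul, h1, Matrix.vecMul_one]
    set x : ι → RatFunc k := u ᵥ* Matrix.diagonal (fun i => (RatFunc.X : RatFunc k) ^ d i) with hx
    have hxi : ∀ i, x i = u i * RatFunc.X ^ d i := fun i => Matrix.vecMul_diagonal _ _ _
    constructor
    · intro h j
      rw [hvP]
      refine vecMul_integral hU (fun i => ?_) j
      rw [hxi, vI_mul_X_zpow_le_one_iff]
      exact h i
    · intro h i
      rw [← vI_mul_X_zpow_le_one_iff, ← hxi]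
      have hx' : x = (x ᵥ* U) ᵥ* U⁻¹ := by
        rw [Matrix.vecMul_vecMul, Matrix.mul_nonsing_inv U hUu, Matrix.vecMul_one]
      rw [hx']
      refine vecMul_integral hUinv (fun j => ?_) i
      rw [← hvP]
      exact h j
  have hinf : Llat k ι ⊓ Mlat P = (Llat k ι ⊓ Dlat (fun i => -(d i))).comap T.toLinearMap := by
    rw [Submodule.comap_inf, hT1, hT2]
  have hsup : Llat k ι ⊔ Mlat P = (Llat k ι ⊔ Dlat (fun i => -(d i))).comap T.toLinearMap := by
    rw [Submodule.comap_equiv_eq_map_symm, Submodule.map_sup, ← Submodule.comap_equiv_eq_map_symm,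
      ← Submodule.comap_equiv_eq_map_symm, hT1, hT2]
  have e0 : ↥(Llat k ι ⊓ Mlat P) ≃ₗ[k] ↥(Llat k ι ⊓ Dlat (fun i => -(d i))) := by
    rw [hinf]
    exact LinearEquiv.ofSubmodule' T _
  have e1 : ((ι → RatFunc k) ⧸ (Llat k ι ⊔ Mlat P)) ≃ₗ[k]
      ((ι → RatFunc k) ⧸ (Llat k ι ⊔ Dlat (fun i => -(d i)))) := by
    rw [hsup]
    refine Submodule.Quotient.equiv _ _ T ?_
    exact Submodule.map_comap_eq_of_surjective T.surjective _
  refine ⟨LinearEquiv.finiteDimensional e0.symm, LinearEquiv.finiteDimensional e1.symm, ?_, ?_, ?_⟩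
  · rw [LinearEquiv.finrank_eq e0, finrank_Llat_inf_Dlat]
  · rw [LinearEquiv.finrank_eq e1, finrank_quot_Llat_sup_Dlat]
    refine Finset.sum_congr rfl fun i _ => ?_
    congr 1
    ring
  · -- determinants
    have hdet := congrArg (fun M => vI k (Matrix.det M)) hB
    simp only [Matrix.det_mul, Matrix.det_diagonal, map_mul, map_prod, vI_X_zpow, hdetU, mul_one,
      vI_det_toK_of_isUnit hW, one_mul, Matrix.det_nonsing_inv, Ring.inverse_eq_inv', map_inv₀,
      vI_of_ne_zero hP] at hdet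
    rw [← exp_sum, ← WithZero.exp_neg, exp_inj] at hdet
    omega

/-- **Riemann–Roch for a rank-`ι` lattice pair on the projective line.** -/
theorem lattice_index {P : Matrix ι ι (RatFunc k)} (hP : P.det ≠ 0) :
    FiniteDimensional k ↥(Llat k ι ⊓ Mlat P) ∧
    FiniteDimensional k ((ι → RatFunc k) ⧸ (Llat k ι ⊔ Mlat P)) ∧
    (finrank k ↥(Llat k ι ⊓ Mlat P) : ℤ) - finrank k ((ι → RatFunc k) ⧸ (Llat k ι ⊔ Mlat P))
      = Fintype.card ι + P.det.intDegree := by
  obtain ⟨W, d, U, hW, hU, hdetU, hB⟩ := birkhoff hP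
  obtain ⟨f0, f1, r0, r1, hdeg⟩ := lattice_index_aux hP hW hU hdetU hB
  refine ⟨f0, f1, ?_⟩
  rw [r0, r1, hdeg]
  push_cast
  rw [← Finset.sum_sub_distrib, ← Finset.sum_neg_distrib, Fintype.card_eq_sum_ones]
  push_cast
  rw [← Finset.sum_add_distrib]
  refine Finset.sum_congr rfl fun i _ => ?_
  omega

/-- Riemann's inequality. -/
theorem riemann_inequality {P : Matrix ι ι (RatFunc k)} (hP : P.det ≠ 0) :
    (Fintype.card ι : ℤ) + P.det.intDegree ≤ finrank k ↥(Llat k ι ⊓ Mlat P) := by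
  obtain ⟨_, _, h⟩ := lattice_index hP
  have : (0 : ℤ) ≤ finrank k ((ι → RatFunc k) ⧸ (Llat k ι ⊔ Mlat P)) := Int.natCast_nonneg _
  omega

/-- The dimension of `H¹`. -/
theorem finrank_h1 {P : Matrix ι ι (RatFunc k)} (hP : P.det ≠ 0) :
    (finrank k ((ι → RatFunc k) ⧸ (Llat k ι ⊔ Mlat P)) : ℤ)
      = finrank k ↥(Llat k ι ⊓ Mlat P) - Fintype.card ι - P.det.intDegree := by
  obtain ⟨_, _, h⟩ := lattice_index hP
  omega

end

end Fermat.Agent.S20_helper1
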