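import Mathlib

/-!
# The place at infinity of `k(X)`: elementary facts

`K = RatFunc k`, `v = RatFunc.inftyValuation k`, `A = k[X]`.
* `poly_eq_zero_of_lt_one`  : a polynomial with `v < 1` is zero.
* `exists_const_sub_lt`     : `v f ≤ 1 → ∃ c : k, v (f - C c) < 1`  (residue field at infinity is `k`).
* `exists_poly_sub_lt`      : every `f` is a polynomial plus something with `v < 1`.
-/

namespace Fermat.Agent.S20_helper1

open Polynomial WithZero

noncomputable section

variable (k : Type*) [Field k]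

/-- classical decidable equality on `RatFunc k` (needed by `RatFunc.inftyValuation`) -/
local instance decEqRatFunc : DecidableEq (RatFunc k) := Classical.decEq _

/-- the valuation at infinity -/
abbrev vI : Valuation (RatFunc k) ℤᵐ⁰ := RatFunc.inftyValuation k

variable {k}

lemma vI_of_ne_zero {f : RatFunc k} (hf : f ≠ 0) : vI k f = exp f.intDegree := by
  rw [RatFunc.inftyValuation_apply, RatFunc.inftyValuation_of_nonzero k hf]

lemma vI_algebraMap {a : k[X]} (ha : a ≠ 0) :
    vI k (algebraMap k[X] (RatFunc k) a) = exp (a.natDegree : ℤ) := by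
  rw [RatFunc.inftyValuation_apply, RatFunc.inftyValuation.polynomial k ha]

lemma vI_C_le_one (c : k) : vI k (RatFunc.C c) ≤ 1 := by
  by_cases hc : c = 0
  · simp [hc]
  · rw [RatFunc.inftyValuation.C k hc]

lemma vI_C {c : k} (hc : c ≠ 0) : vI k (RatFunc.C c) = 1 := RatFunc.inftyValuation.C k hc

lemma exp_sum {ι : Type*} (s : Finset ι) (f : ι → ℤ) :
    exp (∑ i ∈ s, f i) = ∏ i ∈ s, exp (f i) := by
  classical
  induction s using Finset.induction_on with
  | empty => simp
  | insert a s ha ih => rw [Finset.sum_insert ha, Finset.prod_insert ha, exp_add, ih]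

lemma vI_le_exp_iff {f : RatFunc k} {d : ℤ} : vI k f ≤ exp d ↔ f = 0 ∨ f.intDegree ≤ d := by
  by_cases hf : f = 0
  · simp [hf]
  · rw [vI_of_ne_zero hf, exp_le_exp]
    simp [hf]

lemma vI_le_one_iff {f : RatFunc k} : vI k f ≤ 1 ↔ f.intDegree ≤ 0 := by
  rw [← exp_zero, vI_le_exp_iff]
  constructor
  · rintro (h | h)
    · simp [h]
    · exact h
  · exact fun h => Or.inr h

lemma vI_X_zpow (d : ℤ) : vI k (RatFunc.X ^ d) = exp d := RatFunc.inftyValuation.X_zpow k d

lemma lt_exp_iff_le_exp_pred {x : ℤᵐ⁰} {d : ℤ} : x < exp d ↔ x ≤ exp (d - 1) := by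
  have h := lt_mul_exp_iff_le (x := x) (y := exp (d - 1)) exp_ne_zero
  rw [← exp_add] at h
  simpa using h

lemma lt_one_iff_le_exp_neg_one {x : ℤᵐ⁰} : x < 1 ↔ x ≤ exp (-1 : ℤ) := by
  have := lt_exp_iff_le_exp_pred (x := x) (d := 0)
  simpa using this

/-- a polynomial of negative degree at infinity vanishes -/
lemma poly_eq_zero_of_lt_one {a : k[X]} (h : vI k (algebraMap k[X] (RatFunc k) a) < 1) :
    a = 0 := by
  by_contra ha
  rw [vI_algebraMap ha, ← exp_zero, exp_lt_exp] at h
  omega

/-- the residue field at infinity is `k` -/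
lemma exists_const_sub_lt {f : RatFunc k} (hf : vI k f ≤ 1) :
    ∃ c : k, vI k (f - RatFunc.C c) < 1 := by
  by_cases hf0 : f = 0
  · exact ⟨0, by simp [hf0]⟩
  have hdeg : f.intDegree ≤ 0 := by
    rw [vI_of_ne_zero hf0, ← exp_zero, exp_le_exp] at hf
    exact hf
  rcases lt_or_eq_of_le hdeg with hlt | heq
  · refine ⟨0, ?_⟩
    rw [map_zero, sub_zero, vI_of_ne_zero hf0, ← exp_zero, exp_lt_exp]
    exact hlt
  · -- degree zero: subtract the quotient of leading coefficients
    set p := f.num with hp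
    set q := f.denom with hq
    have hq0 : q ≠ 0 := f.denom_ne_zero
    have hp0 : p ≠ 0 := RatFunc.num_ne_zero hf0
    have hqm : q.Monic := f.monic_denom
    have hnat : p.natDegree = q.natDegree := by
      have : (p.natDegree : ℤ) - q.natDegree = 0 := heq
      omega
    refine ⟨p.leadingCoeff, ?_⟩
    set r : k[X] := p - Polynomial.C p.leadingCoeff * q with hr
    have hfr : f - RatFunc.C p.leadingCoeff
        = algebraMap k[X] (RatFunc k) r / algebraMap k[X] (RatFunc k) q := by
      have hq' : algebraMap k[X] (RatFunc k) q ≠ 0 := by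
        simpa using hq0
      rw [eq_div_iff hq', hr, map_sub, map_mul, sub_mul, RatFunc.algebraMap_C]
      congr 1
      have := RatFunc.num_div_denom f
      rw [div_eq_iff hq'] at this
      exact this.symm
    by_cases hr0 : r = 0
    · rw [hfr, hr0]; simp
    · have hdeg_lt : r.natDegree < q.natDegree := by
        have h1 : (Polynomial.C p.leadingCoeff * q).degree = p.degree := by
          rw [Polynomial.degree_C_mul (Polynomial.leadingCoeff_ne_zero.mpr hp0),
            Polynomial.degree_eq_natDegree hq0, Polynomial.degree_eq_natDegree hp0, hnat]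
        have h2 : (Polynomial.C p.leadingCoeff * q).leadingCoeff = p.leadingCoeff := by
          rw [Polynomial.leadingCoeff_mul, Polynomial.leadingCoeff_C, hqm.leadingCoeff, mul_one]
        have h3 : r.degree < p.degree := Polynomial.degree_sub_lt_left h1.symm hp0 h2.symm
        have h4 : r.natDegree < p.natDegree := Polynomial.natDegree_lt_natDegree hr0 h3
        omega
      rw [hfr, map_div₀, vI_algebraMap hr0, vI_algebraMap hq0, ← exp_sub, ← exp_zero, exp_lt_exp]
      omega

/-- scaled version: the graded pieces at infinity are one-dimensional -/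
lemma exists_monomial_sub_le {f : RatFunc k} {d : ℤ} (hf : vI k f ≤ exp d) :
    ∃ c : k, vI k (f - RatFunc.C c * RatFunc.X ^ d) ≤ exp (d - 1) := by
  have hX : (RatFunc.X : RatFunc k) ≠ 0 := RatFunc.X_ne_zero
  have h1 : vI k (f * RatFunc.X ^ (-d)) ≤ 1 := by
    rw [map_mul, vI_X_zpow, exp_neg]
    calc vI k f * (exp d)⁻¹ ≤ exp d * (exp d)⁻¹ := by gcongr
      _ = 1 := mul_inv_cancel₀ exp_ne_zero
  obtain ⟨c, hc⟩ := exists_const_sub_lt h1
  refine ⟨c, ?_⟩
  have h2 : f - RatFunc.C c * RatFunc.X ^ d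
      = (f * RatFunc.X ^ (-d) - RatFunc.C c) * RatFunc.X ^ d := by
    rw [sub_mul, mul_assoc, ← zpow_add₀ hX]
    simp
  rw [h2, map_mul, vI_X_zpow, ← lt_exp_iff_le_exp_pred]
  calc vI k (f * RatFunc.X ^ (-d) - RatFunc.C c) * exp d < 1 * exp d := by
        exact mul_lt_mul_of_pos_right hc exp_pos
    _ = exp d := one_mul _

lemma exists_nat_vI_le (f : RatFunc k) : ∃ n : ℕ, vI k f ≤ exp ((n : ℤ) - 1) := by
  by_cases hf : f = 0
  · exact ⟨0, by simp [hf]⟩
  · refine ⟨(f.intDegree + 1).toNat, ?_⟩
    rw [vI_of_ne_zero hf, exp_le_exp]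
    omega

/-- polynomial part -/
lemma exists_poly_sub_lt (f : RatFunc k) :
    ∃ a : k[X], vI k (f - algebraMap k[X] (RatFunc k) a) < 1 := by
  obtain ⟨n, hn⟩ := exists_nat_vI_le f
  induction n generalizing f with
  | zero =>
    refine ⟨0, ?_⟩
    rw [map_zero, sub_zero, lt_one_iff_le_exp_neg_one]
    simpa using hn
  | succ n ih =>
    have hn' : vI k f ≤ exp (n : ℤ) := by
      simpa using hn
    obtain ⟨c, hc⟩ := exists_monomial_sub_le hn'
    obtain ⟨a, ha⟩ := ih _ hc
    refine ⟨a + Polynomial.C c * Polynomial.X ^ n, ?_⟩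
    have : algebraMap k[X] (RatFunc k) (a + Polynomial.C c * Polynomial.X ^ n)
        = algebraMap k[X] (RatFunc k) a + RatFunc.C c * RatFunc.X ^ (n : ℤ) := by
      rw [map_add, map_mul, map_pow, RatFunc.algebraMap_C, RatFunc.algebraMap_X, zpow_natCast]
    rw [this]
    have h3 : f - (algebraMap k[X] (RatFunc k) a + RatFunc.C c * RatFunc.X ^ (n : ℤ))
        = f - RatFunc.C c * RatFunc.X ^ (n : ℤ) - algebraMap k[X] (RatFunc k) a := by ring
    rw [h3]
    exact ha

end

end Fermat.Agent.S20_helper1
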