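import Fermat.Agent.S20_helper1.Infty

/-!
# Rank one: `H⁰` and `H¹` of `O(d)` on the projective line

`Apoly k` = polynomials inside `k(X)`, `Kle k d` = rational functions of degree `≤ d` (and `0`).
* `finrank_Apoly_inf_Kle d : finrank k (Apoly k ⊓ Kle k d) = (d + 1).toNat`
* `finrank_quot_Apoly_sup_Kle d : finrank k (RatFunc k ⧸ (Apoly k ⊔ Kle k d)) = (-d - 1).toNat`
-/

namespace Fermat.Agent.S20_helper1

open Polynomial WithZero Module

noncomputable section

variable (k : Type*) [Field k]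

/-- the inclusion `k[X] → k(X)` as a `k`-linear map -/
def polyIncl : k[X] →ₗ[k] RatFunc k := (IsScalarTower.toAlgHom k k[X] (RatFunc k)).toLinearMap

@[simp] lemma polyIncl_apply (a : k[X]) : polyIncl k a = algebraMap k[X] (RatFunc k) a := rfl

lemma polyIncl_injective : Function.Injective (polyIncl k) :=
  fun _ _ h => RatFunc.algebraMap_injective k h

/-- polynomials, as a `k`-subspace of `k(X)` -/
def Apoly : Submodule k (RatFunc k) := LinearMap.range (polyIncl k)

/-- rational functions with `v_∞ ≤ exp d` i.e. zero or of degree `≤ d` -/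
def Kle (d : ℤ) : Submodule k (RatFunc k) where
  carrier := {f | vI k f ≤ exp d}
  add_mem' := by
    intro a b ha hb
    exact le_trans (Valuation.map_add _ a b) (max_le (show vI k a ≤ exp d from ha) (show vI k b ≤ exp d from hb))
  zero_mem' := by simp
  smul_mem' := by
    intro c f hf
    change vI k f ≤ exp d at hf
    change vI k (c • f) ≤ exp d
    rw [Algebra.smul_def, RatFunc.algebraMap_eq_C, map_mul]
    calc vI k (RatFunc.C c) * vI k f ≤ 1 * exp d := mul_le_mul' (vI_C_le_one c) hf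
      _ = exp d := one_mul _

variable {k}

lemma mem_Apoly {f : RatFunc k} : f ∈ Apoly k ↔ ∃ a : k[X], algebraMap k[X] (RatFunc k) a = f :=
  Iff.rfl

lemma mem_Kle {d : ℤ} {f : RatFunc k} : f ∈ Kle k d ↔ vI k f ≤ exp d := Iff.rfl

lemma Kle_mono {d e : ℤ} (h : d ≤ e) : Kle k d ≤ Kle k e := by
  intro f hf
  rw [mem_Kle] at hf ⊢
  exact hf.trans (exp_le_exp.mpr h)

lemma algebraMap_mem_Kle_iff {a : k[X]} {n : ℕ} :
    algebraMap k[X] (RatFunc k) a ∈ Kle k ((n : ℤ) - 1) ↔ a ∈ Polynomial.degreeLT k n := by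
  rw [mem_Kle, Polynomial.mem_degreeLT]
  by_cases ha : a = 0
  · simp [ha]
  · rw [vI_algebraMap ha, exp_le_exp, Polynomial.degree_eq_natDegree ha]
    rw [Nat.cast_lt]
    omega

lemma algebraMap_mem_Kle_neg {a : k[X]} {d : ℤ} (hd : d < 0)
    (h : algebraMap k[X] (RatFunc k) a ∈ Kle k d) : a = 0 := by
  apply poly_eq_zero_of_lt_one
  rw [mem_Kle] at h
  refine lt_of_le_of_lt h ?_
  rw [← exp_zero, exp_lt_exp]
  exact hd

lemma algebraMap_mem_inf_iff {a : k[X]} {d : ℤ} :
    algebraMap k[X] (RatFunc k) a ∈ Apoly k ⊓ Kle k d ↔ a ∈ Polynomial.degreeLT k (d + 1).toNat := by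
  rw [Submodule.mem_inf]
  constructor
  · rintro ⟨-, hf⟩
    by_cases hd : 0 ≤ d + 1
    · have h1 : ((d + 1).toNat : ℤ) - 1 = d := by omega
      rw [← algebraMap_mem_Kle_iff, h1]
      exact hf
    · have : a = 0 := algebraMap_mem_Kle_neg (by omega) hf
      rw [this]
      exact Submodule.zero_mem _
  · intro ha
    refine ⟨⟨a, rfl⟩, ?_⟩
    by_cases hd : 0 ≤ d + 1
    · have h1 : ((d + 1).toNat : ℤ) - 1 = d := by omega
      rw [← h1, algebraMap_mem_Kle_iff]
      exact ha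
    · have h0 : (d + 1).toNat = 0 := by omega
      rw [h0, Polynomial.mem_degreeLT] at ha
      have : a = 0 := by
        by_contra hne
        rw [Polynomial.degree_eq_natDegree hne] at ha
        exact absurd ha (by simp)
      rw [this, map_zero]
      exact Submodule.zero_mem _

/-- `H⁰(P¹, O(d))` as a space of polynomials -/
def h0Equiv (d : ℤ) : Polynomial.degreeLT k (d + 1).toNat ≃ₗ[k] ↥(Apoly k ⊓ Kle k d) := by
  refine LinearEquiv.ofBijective
    (LinearMap.codRestrict (Apoly k ⊓ Kle k d)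
      ((polyIncl k).comp (Polynomial.degreeLT k (d + 1).toNat).subtype) ?_) ⟨?_, ?_⟩
  · rintro ⟨a, ha⟩
    exact algebraMap_mem_inf_iff.mpr ha
  · intro x y hxy
    have := congrArg Subtype.val hxy
    simp only [LinearMap.codRestrict_apply, LinearMap.coe_comp, Submodule.coe_subtype,
      Function.comp_apply] at this
    exact Subtype.ext (polyIncl_injective k this)
  · rintro ⟨f, hf⟩
    obtain ⟨a, rfl⟩ := (Submodule.mem_inf.mp hf).1
    exact ⟨⟨a, algebraMap_mem_inf_iff.mp hf⟩, Subtype.ext rfl⟩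

instance finiteDimensional_h0 (d : ℤ) : FiniteDimensional k ↥(Apoly k ⊓ Kle k d) :=
  LinearEquiv.finiteDimensional
    ((Polynomial.degreeLTEquiv k (d + 1).toNat).symm.trans (h0Equiv d))

theorem finrank_Apoly_inf_Kle (d : ℤ) : finrank k ↥(Apoly k ⊓ Kle k d) = (d + 1).toNat := by
  rw [← LinearEquiv.finrank_eq ((Polynomial.degreeLTEquiv k (d + 1).toNat).symm.trans (h0Equiv d)),
    Module.finrank_fin_fun]

/-! ### `H¹` -/

/-- the principal-part monomials `X⁻¹, …, X⁻ⁿ` -/
def tailMap (n : ℕ) : (Fin n → k) →ₗ[k] RatFunc k where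
  toFun c := ∑ j : Fin n, RatFunc.C (c j) * RatFunc.X ^ (-((j : ℕ) : ℤ) - 1)
  map_add' := by
    intro c c'
    simp only [Pi.add_apply, map_add, add_mul, Finset.sum_add_distrib]
  map_smul' := by
    intro a c
    simp only [Pi.smul_apply, smul_eq_mul, map_mul, RingHom.id_apply, Finset.smul_sum]
    refine Finset.sum_congr rfl fun j _ => ?_
    rw [Algebra.smul_def, RatFunc.algebraMap_eq_C, mul_assoc]

lemma tailMap_apply (n : ℕ) (c : Fin n → k) :
    tailMap n c = ∑ j : Fin n, RatFunc.C (c j) * RatFunc.X ^ (-((j : ℕ) : ℤ) - 1) := rfl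

lemma tailMap_mem_Kle (n : ℕ) (c : Fin n → k) : tailMap n c ∈ Kle k (-1) := by
  rw [tailMap_apply]
  refine Submodule.sum_mem _ fun j _ => ?_
  rw [mem_Kle, map_mul, vI_X_zpow]
  calc vI k (RatFunc.C (c j)) * exp (-((j : ℕ) : ℤ) - 1) ≤ 1 * exp (-1) := by
        refine mul_le_mul' (vI_C_le_one _) ?_
        rw [exp_le_exp]; omega
    _ = exp (-1) := one_mul _

/-- approximation by principal parts -/
lemma exists_tail_sub_mem (n : ℕ) {f : RatFunc k} (hf : f ∈ Kle k (-1)) :
    ∃ c : Fin n → k, f - tailMap n c ∈ Kle k (-(n : ℤ) - 1) := by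
  induction n with
  | zero =>
    refine ⟨fun _ => 0, ?_⟩
    simpa [tailMap_apply] using hf
  | succ n ih =>
    obtain ⟨c, hc⟩ := ih
    rw [mem_Kle] at hc
    obtain ⟨a, ha⟩ := exists_monomial_sub_le hc
    refine ⟨Fin.snoc c a, ?_⟩
    rw [mem_Kle, tailMap_apply, Fin.sum_univ_castSucc]
    simp only [Fin.snoc_castSucc, Fin.snoc_last, Fin.val_castSucc, Fin.val_last]
    rw [← tailMap_apply, ← sub_sub]
    have : (-((n + 1 : ℕ) : ℤ) - 1) = (-(n : ℤ) - 1) - 1 := by push_cast; ring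
    rw [this]
    exact ha

/-- the monomials `X⁻¹, …, X⁻ⁿ` are independent modulo polynomials and degree `≤ -n-1` -/
lemma tailMap_eq_zero_of_mem (n : ℕ) (c : Fin n → k)
    (h : tailMap n c ∈ Apoly k ⊔ Kle k (-(n : ℤ) - 1)) : c = 0 := by
  obtain ⟨p, ⟨a, rfl⟩, g, hg, hpg⟩ := Submodule.mem_sup.mp h
  -- the polynomial part vanishes
  have ha : a = 0 := by
    apply poly_eq_zero_of_lt_one
    have h1 : algebraMap k[X] (RatFunc k) a = tailMap n c - g := by
      rw [← hpg]; simp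
    rw [polyIncl_apply] at hpg
    rw [h1, lt_one_iff_le_exp_neg_one]
    have hg' : g ∈ Kle k (-1) := Kle_mono (by omega) hg
    exact (Kle k (-1)).sub_mem (tailMap_mem_Kle n c) hg'
  rw [ha, map_zero, zero_add] at hpg
  -- multiply by `X ^ n`
  have hX : (RatFunc.X : RatFunc k) ≠ 0 := RatFunc.X_ne_zero
  set q : k[X] := ∑ j : Fin n, Polynomial.C (c j) * Polynomial.X ^ (n - 1 - (j : ℕ)) with hq
  have hq' : algebraMap k[X] (RatFunc k) q = tailMap n c * RatFunc.X ^ (n : ℤ) := by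
    rw [hq, map_sum, tailMap_apply, Finset.sum_mul]
    refine Finset.sum_congr rfl fun j _ => ?_
    rw [map_mul, map_pow, RatFunc.algebraMap_C, RatFunc.algebraMap_X, mul_assoc, ← zpow_add₀ hX,
      ← zpow_natCast]
    congr 2
    have := j.2
    omega
  have hq0 : q = 0 := by
    apply poly_eq_zero_of_lt_one
    rw [hq', ← hpg, map_mul, vI_X_zpow, lt_one_iff_le_exp_neg_one]
    rw [mem_Kle] at hg
    calc vI k g * exp (n : ℤ) ≤ exp (-(n : ℤ) - 1) * exp (n : ℤ) := mul_le_mul' hg le_rfl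
      _ = exp (-1) := by rw [← exp_add]; congr 1; ring
  funext j
  have hcoeff := congrArg (fun r : k[X] => r.coeff (n - 1 - (j : ℕ))) hq0
  simp only [hq, Polynomial.finsetSum_coeff, Polynomial.coeff_C_mul, Polynomial.coeff_X_pow,
    Polynomial.coeff_zero] at hcoeff
  rw [Finset.sum_eq_single j] at hcoeff
  · simpa using hcoeff
  · intro i _ hij
    have hi := i.2
    have hj := j.2
    have : n - 1 - (j : ℕ) ≠ n - 1 - (i : ℕ) := by
      intro h
      apply hij
      apply Fin.ext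
      omega
    simp [this]
  · intro h; exact absurd (Finset.mem_univ j) h

/-- `H¹(P¹, O(d))` for `d = -n-1` -/
def h1Equiv (n : ℕ) : (Fin n → k) ≃ₗ[k] (RatFunc k ⧸ (Apoly k ⊔ Kle k (-(n : ℤ) - 1))) := by
  refine LinearEquiv.ofBijective ((Submodule.mkQ _).comp (tailMap n)) ⟨?_, ?_⟩
  · rw [← LinearMap.ker_eq_bot, LinearMap.ker_eq_bot']
    intro c hc
    simp only [LinearMap.coe_comp, Function.comp_apply, Submodule.mkQ_apply,
      Submodule.Quotient.mk_eq_zero] at hc
    exact tailMap_eq_zero_of_mem n c hc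
  · intro y
    obtain ⟨f, rfl⟩ := Submodule.Quotient.mk_surjective _ y
    obtain ⟨a, ha⟩ := exists_poly_sub_lt f
    rw [lt_one_iff_le_exp_neg_one] at ha
    obtain ⟨c, hc⟩ := exists_tail_sub_mem n (f := f - algebraMap k[X] (RatFunc k) a) ha
    refine ⟨c, ?_⟩
    simp only [LinearMap.coe_comp, Function.comp_apply, Submodule.mkQ_apply]
    rw [eq_comm, Submodule.Quotient.eq]
    have : f - tailMap n c
        = algebraMap k[X] (RatFunc k) a + (f - algebraMap k[X] (RatFunc k) a - tailMap n c) := by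
      ring
    rw [this]
    exact Submodule.add_mem_sup ⟨a, rfl⟩ hc

lemma Apoly_sup_Kle_eq_top {d : ℤ} (hd : -1 ≤ d) : Apoly k ⊔ Kle k d = ⊤ := by
  rw [eq_top_iff]
  intro f _
  obtain ⟨a, ha⟩ := exists_poly_sub_lt f
  rw [lt_one_iff_le_exp_neg_one] at ha
  have : f = algebraMap k[X] (RatFunc k) a + (f - algebraMap k[X] (RatFunc k) a) := by ring
  rw [this]
  exact Submodule.add_mem_sup ⟨a, rfl⟩ (Kle_mono hd ha)

instance finiteDimensional_h1 (d : ℤ) : FiniteDimensional k (RatFunc k ⧸ (Apoly k ⊔ Kle k d)) := by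
  by_cases hd : -1 ≤ d
  · rw [Apoly_sup_Kle_eq_top hd]
    infer_instance
  · obtain ⟨n, rfl⟩ : ∃ n : ℕ, d = -(n : ℤ) - 1 := ⟨(-d - 1).toNat, by omega⟩
    exact LinearEquiv.finiteDimensional (h1Equiv n)

theorem finrank_quot_Apoly_sup_Kle (d : ℤ) :
    finrank k (RatFunc k ⧸ (Apoly k ⊔ Kle k d)) = (-d - 1).toNat := by
  by_cases hd : -1 ≤ d
  · rw [Apoly_sup_Kle_eq_top hd]
    have : (-d - 1).toNat = 0 := by omega
    rw [this]
    exact finrank_zero_of_subsingleton
  · obtain ⟨n, rfl⟩ : ∃ n : ℕ, d = -(n : ℤ) - 1 := ⟨(-d - 1).toNat, by omega⟩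
    rw [← LinearEquiv.finrank_eq (h1Equiv n), Module.finrank_fin_fun]
    omega

end

end Fermat.Agent.S20_helper1
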